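import Fermat.Agent.S18.KPack
import Fermat.Agent.NV.Rational
import Fermat.Agent.GES.Defs

set_option autoImplicit false

/-!
# S36, step (1) DESCENT, part D2: rationality

* `Rat.mem_of_coeffMap_mem` : for fields `k ⊆ K` (any ring hom `i`) : `F_K ∩ k((q)) = F_k`
  (`F_K = modularFunctionFieldFullC K N`).
* `exists_rational` : an element `g` of `FN N` fixed coefficientwise by a set `H ⊆ G_ℚ` comes from
  `F_K` for a number field `K` with `ι : K →+* ℚ̄`, `ι K` fixed by `H`; `ι K` can be made to contain any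
  finite set of `H`-fixed elements.
-/

noncomputable section

namespace Fermat.Agent.S36.Descent

open AlgebraicCurve ModularCurve IntermediateField
open Fermat.Agent.S24 (Kb FN iotaK)
open Fermat.Agent.GES (GQ galF)

namespace Rat

variable {k K : Type*} [Field k] [Field K] (i : k →+* K)

/-- the generators. -/
def gens (k : Type*) [Field k] (S : Set (LaurentSeries k)) : Set (LaurentSeries k) :=
  Set.range (HahnSeries.C : k → LaurentSeries k) ∪ S

/-- finite `K`-linear combinations of images of elements of a subring of `k((q))`. -/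
def IsSpan (R : Subring (LaurentSeries k)) (y : LaurentSeries K) : Prop :=
  ∃ (I : Type) (_ : Fintype I) (e : I → K) (a : I → LaurentSeries k),
    (∀ s, a s ∈ R) ∧ y = ∑ s, HahnSeries.C (e s) * coeffMap i (a s)

theorem isSpan_of_mem (S : Set (LaurentSeries k)) (y : LaurentSeries K)
    (hy : y ∈ Subring.closure (gens K (coeffMap i '' S))) :
    IsSpan i (Subring.closure (gens k S)) y := by
  induction hy using Subring.closure_induction with
  | mem y hy =>
    rcases hy with ⟨e, rfl⟩ | ⟨a, ha, rfl⟩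
    · refine ⟨Unit, inferInstance, fun _ => e, fun _ => 1, fun _ => one_mem _, ?_⟩
      simp
    · refine ⟨Unit, inferInstance, fun _ => 1, fun _ => a,
        fun _ => Subring.subset_closure (Or.inr ha), ?_⟩
      simp
  | zero =>
    refine ⟨Unit, inferInstance, fun _ => 0, fun _ => 0, fun _ => zero_mem _, ?_⟩
    simp
  | one =>
    refine ⟨Unit, inferInstance, fun _ => 1, fun _ => 1, fun _ => one_mem _, ?_⟩
    simp
  | add y y' _ _ h h' =>
    obtain ⟨I, _, e, a, ha, rfl⟩ := h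
    obtain ⟨I', _, e', a', ha', rfl⟩ := h'
    refine ⟨I ⊕ I', inferInstance, Sum.elim e e', Sum.elim a a', ?_, ?_⟩
    · rintro (s | s)
      · exact ha s
      · exact ha' s
    · rw [Fintype.sum_sum_type]
      rfl
  | neg y _ h =>
    obtain ⟨I, _, e, a, ha, rfl⟩ := h
    refine ⟨I, inferInstance, fun s => - e s, a, ha, ?_⟩
    rw [← Finset.sum_neg_distrib]
    apply Finset.sum_congr rfl
    intro s _
    rw [map_neg, neg_mul]
  | mul y y' _ _ h h' =>
    obtain ⟨I, _, e, a, ha, rfl⟩ := h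
    obtain ⟨I', _, e', a', ha', rfl⟩ := h'
    refine ⟨I × I', inferInstance, fun p => e p.1 * e' p.2, fun p => a p.1 * a' p.2,
      fun p => mul_mem (ha p.1) (ha' p.2), ?_⟩
    rw [Finset.sum_mul_sum, Fintype.sum_prod_type]
    apply Finset.sum_congr rfl
    intro s _
    apply Finset.sum_congr rfl
    intro s' _
    rw [map_mul, map_mul]
    ring

/-- a `k`-linear form applied coefficientwise maps the big ring to the small one. -/
theorem map_mem (S : Set (LaurentSeries k)) (ℓ : K →+ k)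
    (hℓ : ∀ (a : k) (e : K), ℓ (e * i a) = ℓ e * a) (y : LaurentSeries K)
    (hy : y ∈ Subring.closure (gens K (coeffMap i '' S))) :
    y.map ℓ ∈ Subring.closure (gens k S) := by
  obtain ⟨I, _, e, a, ha, rfl⟩ := isSpan_of_mem i S y hy
  show NV.Rational.mapHom ℓ _ ∈ _
  rw [map_sum]
  refine sum_mem fun s _ => ?_
  show (HahnSeries.C (e s) * coeffMap i (a s)).map ℓ ∈ _
  rw [NV.Rational.map_mul_coeffMap i ℓ hℓ, NV.Rational.map_C]
  exact mul_mem (Subring.subset_closure (Or.inl ⟨_, rfl⟩)) (ha s)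

/-- abstract rationality. -/
theorem mem_of_coeffMap_mem_abs (S : Set (LaurentSeries k)) (x : LaurentSeries k)
    (h : coeffMap i x ∈ Subfield.closure (gens K (coeffMap i '' S))) :
    x ∈ Subfield.closure (gens k S) := by
  obtain ⟨u, hu, w, hw, hx⟩ := Subfield.mem_closure_iff.1 h
  by_cases hw0 : w = 0
  · rw [hw0, div_zero] at hx
    have : x = 0 := by
      apply (coeffMap i).injective
      rw [← hx, map_zero]
    rw [this]
    exact zero_mem _
  let _ : Algebra k K := i.toAlgebra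
  let b := Module.Basis.ofVectorSpace k K
  obtain ⟨n, hn⟩ : ∃ n, w.coeff n ≠ 0 := by
    by_contra hcon
    push Not at hcon
    exact hw0 (HahnSeries.ext (funext hcon))
  obtain ⟨s, hs⟩ : ∃ s, b.repr (w.coeff n) s ≠ 0 := by
    by_contra hcon
    push Not at hcon
    apply hn
    apply b.repr.injective
    rw [map_zero]
    exact Finsupp.ext hcon
  let ℓ : K →+ k := (b.coord s).toAddMonoidHom
  have hℓ : ∀ (a : k) (e : K), ℓ (e * i a) = ℓ e * a := by
    intro a e
    have h1 : e * i a = a • e := by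
      rw [Algebra.smul_def, mul_comm]
      rfl
    rw [h1]
    show b.coord s (a • e) = b.coord s e * a
    rw [map_smul, smul_eq_mul, mul_comm]
  have hwx : w * coeffMap i x = u := by
    rw [← hx, mul_div_cancel₀ _ hw0]
  have h2 := NV.Rational.map_mul_coeffMap i ℓ hℓ w x
  rw [hwx] at h2
  have hw' : w.map ℓ ≠ 0 := by
    intro h0
    apply hs
    have := congrArg (fun y : LaurentSeries k => y.coeff n) h0
    exact this
  have hx' : x = u.map ℓ / w.map ℓ := by
    rw [h2, mul_div_cancel_left₀ _ hw']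
  rw [hx']
  exact div_mem (Subfield.subring_closure_le _ (map_mem i S ℓ hℓ u hu))
    (Subfield.subring_closure_le _ (map_mem i S ℓ hℓ w hw))

theorem mem_full_iff (k : Type*) [Field k] (N : ℕ) (x : LaurentSeries k) :
    x ∈ modularFunctionFieldFullC k N ↔ x ∈ Subfield.closure (gens k (divisorExpansionsC k N)) := by
  have h : Set.range (algebraMap k (LaurentSeries k)) =
      Set.range (HahnSeries.C : k → LaurentSeries k) := by
    ext y
    constructor
    · rintro ⟨c, rfl⟩
      exact ⟨c, by rw [algebraMap_laurentSeries_eq_single, HahnSeries.C_apply]⟩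
    · rintro ⟨c, rfl⟩
      exact ⟨c, by rw [algebraMap_laurentSeries_eq_single, HahnSeries.C_apply]⟩
  unfold gens
  rw [← h]
  exact Iff.rfl

/-- **Rationality**: `F_K ∩ k((q)) = F_k`. -/
theorem mem_of_coeffMap_mem (N : ℕ) (x : LaurentSeries k)
    (h : coeffMap i x ∈ modularFunctionFieldFullC K N) : x ∈ modularFunctionFieldFullC k N := by
  rw [mem_full_iff] at h ⊢
  apply mem_of_coeffMap_mem_abs i
  refine Subfield.closure_mono ?_ h
  apply Set.union_subset_union_right
  rintro y ⟨d, hd, hdN, rfl⟩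
  exact ⟨qExpand k d (jqModC k), ⟨d, hd, hdN, rfl⟩, by rw [coeffMap_qExpand, coeffMap_jqModC]⟩

/-- a series all of whose coefficients are in the image of `i` is in the image of `coeffMap i`. -/
theorem exists_coeffMap_eq (y : LaurentSeries K) (h : ∀ n, ∃ b, i b = y.coeff n) :
    ∃ x : LaurentSeries k, coeffMap i x = y := by
  choose c hc using h
  refine ⟨⟨c, y.isPWO_support.mono fun n hn => ?_⟩, ?_⟩
  · rw [Function.mem_support] at hn
    rw [HahnSeries.mem_support, ← hc]
    intro h0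
    exact hn (i.injective (by rw [h0, map_zero]))
  · ext n
    rw [coeffMap_coeff]
    exact hc n

theorem coeffMap_comp {k₁ k₂ k₃ : Type*} [Field k₁] [Field k₂] [Field k₃] (i₁ : k₁ →+* k₂)
    (i₂ : k₂ →+* k₃) (x : LaurentSeries k₁) :
    coeffMap (i₂.comp i₁) x = coeffMap i₂ (coeffMap i₁ x) := by
  ext n
  simp only [coeffMap_coeff, RingHom.comp_apply]

/-- a subfield of a number field, as an abstract type. -/
theorem exists_subfield_type {K₂ : Type} [Field K₂] [NumberField K₂] (P : IntermediateField ℚ K₂) :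
    ∃ (K : Type) (_ : Field K) (_ : NumberField K) (i : K →+* K₂), ∀ a, a ∈ P ↔ ∃ b, i b = a :=
  ⟨P, inferInstance, inferInstance, P.val.toRingHom, fun a =>
    ⟨fun h => ⟨⟨a, h⟩, rfl⟩, by rintro ⟨b, rfl⟩; exact b.2⟩⟩

/-- the elements of `K₂` whose image in `ℚ̄` is fixed by `H`. -/
def fixedIn {K₂ : Type} [Field K₂] [Algebra ℚ K₂] (ι₂ : K₂ →+* Kb) (H : Set GQ) :
    IntermediateField ℚ K₂ where
  carrier := {a | ∀ σ ∈ H, σ (ι₂ a) = ι₂ a}
  mul_mem' := fun {a b} ha hb σ hσ => by rw [map_mul, map_mul, ha σ hσ, hb σ hσ]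
  one_mem' := fun σ _ => by rw [map_one, map_one]
  add_mem' := fun {a b} ha hb σ hσ => by rw [map_add, map_add, ha σ hσ, hb σ hσ]
  zero_mem' := fun σ _ => by rw [map_zero, map_zero]
  algebraMap_mem' := fun r σ _ => by
    rw [eq_ratCast (algebraMap ℚ K₂) r, map_ratCast, map_ratCast]
  inv_mem' := fun a ha σ hσ => by rw [map_inv₀, map_inv₀, ha σ hσ]

theorem mem_fixedIn {K₂ : Type} [Field K₂] [Algebra ℚ K₂] (ι₂ : K₂ →+* Kb) (H : Set GQ) (a : K₂) :
    a ∈ fixedIn ι₂ H ↔ ∀ σ ∈ H, σ (ι₂ a) = ι₂ a := Iff.rfl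

/-- a finite-dimensional subfield of `ℚ̄` containing a given one and a finite set. -/
theorem exists_sup (K₁ : IntermediateField ℚ Kb) (h₁ : FiniteDimensional ℚ K₁) (T : Finset Kb) :
    ∃ K₂ : IntermediateField ℚ Kb, FiniteDimensional ℚ K₂ ∧ K₁ ≤ K₂ ∧ ∀ c ∈ T, c ∈ K₂ := by
  classical
  induction T using Finset.induction_on with
  | empty => exact ⟨K₁, h₁, le_rfl, by simp⟩
  | insert c T _ ih =>
    obtain ⟨K₂, h₂, h12, hT⟩ := ih
    have hc : FiniteDimensional ℚ ℚ⟮c⟯ := IntermediateField.adjoin.finiteDimensional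
      ((AlgebraicClosure.isAlgebraic ℚ).isIntegral.isIntegral c)
    refine ⟨K₂ ⊔ ℚ⟮c⟯, IntermediateField.finiteDimensional_sup _ _, h12.trans le_sup_left, ?_⟩
    intro d hd
    rcases Finset.mem_insert.1 hd with rfl | hd
    · exact (le_sup_right : ℚ⟮d⟯ ≤ K₂ ⊔ ℚ⟮d⟯) (IntermediateField.mem_adjoin_simple_self ℚ d)
    · exact (le_sup_left : K₂ ≤ K₂ ⊔ ℚ⟮c⟯) (hT d hd)

end Rat

/-- **D2.**  An element `g` of `FN N` fixed coefficientwise by all `σ ∈ H` comes from `F_K` for a number
field `K`, `ι : K →+* ℚ̄`, with `ι K` fixed by `H` and containing a given finite set `T` of `H`-fixed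
elements. -/
theorem exists_rational (N : ℕ) [NeZero N] (H : Set GQ) (g : FN N) (hg : ∀ σ ∈ H, galF N σ g = g)
    (T : Finset Kb) (hT : ∀ c ∈ T, ∀ σ ∈ H, σ c = c) :
    ∃ (K : Type) (_ : Field K) (_ : NumberField K) (ι : K →+* Kb)
      (u : modularFunctionFieldFullC K N),
      S18.toFN ι N u = g ∧ (∀ σ ∈ H, ∀ a : K, σ (ι a) = ι a) ∧ ∀ c ∈ T, ∃ a : K, ι a = c := by
  obtain ⟨K₁, hK₁, hgG⟩ := S18.KPack.exists_mem_G N g.1 g.2
  obtain ⟨K₁', hK₁', h11, hT1⟩ := Rat.exists_sup K₁ hK₁ T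
  obtain ⟨K₂, fK₂, nfK₂, -, ι₂, hι₂⟩ := S18.KPack.exists_numberField K₁' hK₁'
  obtain ⟨g₂, hg₂⟩ := S18.KPack.exists_descent N ι₂ K₁' hι₂ g.1 (S18.KPack.G_mono N h11 hgG)
  obtain ⟨K, fK, nfK, i, hi⟩ := Rat.exists_subfield_type (Rat.fixedIn ι₂ H)
  obtain ⟨x, hx⟩ := Rat.exists_coeffMap_eq i g₂.1 (fun n => by
    rw [← hi, Rat.mem_fixedIn]
    intro σ hσ
    have h1 := congrArg (fun y : FN N => (y : LaurentSeries Kb).coeff n) (hg σ hσ)
    simp only [GES.coe_galF, coeffMap_coeff, ← hg₂] at h1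
    exact h1)
  have hxm : x ∈ modularFunctionFieldFullC K N := by
    apply Rat.mem_of_coeffMap_mem i
    rw [hx]
    exact g₂.2
  refine ⟨K, fK, nfK, ι₂.comp i, ⟨x, hxm⟩, ?_, ?_, ?_⟩
  · apply Subtype.ext
    rw [S18.toFN_coe, Rat.coeffMap_comp, hx, hg₂]
  · intro σ hσ a
    exact (Rat.mem_fixedIn ι₂ H (i a)).1 ((hi _).2 ⟨a, rfl⟩) σ hσ
  · intro c hc
    obtain ⟨c', rfl⟩ := hι₂ c (hT1 c hc)
    obtain ⟨a, rfl⟩ := (hi c').1 ((Rat.mem_fixedIn ι₂ H c').2 (hT _ hc))
    exact ⟨a, rfl⟩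

end Fermat.Agent.S36.Descent
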