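import Mathlib
import Fermat.Agent.S13.Global
import Fermat.Agent.FD.Local

/-!
# S36, DESCENT, D3: a number field fixed pointwise by the inertia group at `A ∣ q` is unramified
at `A`: `q` is a uniformiser.

* `exists_mul_inertia`: every element of a finite level inertia group lifts to the absolute
  inertia group (up to the fixing subgroup of the level).
* `ramificationIdx_underH`: the inertia field is unramified below `P`.
* `div_mem_level`: the statement for a Galois number field and a valuation subring of it.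
* `div_mem_of_fixed`: the final form (the abstract form `Descent.uniformiser_of_inertia_fixed` is in
  `S36/Descent/Pack.lean`).
-/

set_option autoImplicit false
set_option linter.style.haveILetI false
set_option linter.unusedSectionVars false

namespace Fermat.Agent.S36.Unram

open Pointwise Fermat.Agent.S54

local notation "Lb" => AlgebraicClosure ℚ
local notation "Gb" => (AlgebraicClosure ℚ ≃ₐ[ℚ] AlgebraicClosure ℚ)
local notation "Bb" => integralClosure ℤ (AlgebraicClosure ℚ)

attribute [local instance] isAlgebraic_Lb isAlgClosure_Lb isGalois_Lb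

/-- key lifting lemma (variant of `S13.global_mem_of_inertia_le`): if `H` is a closed normal
subgroup, then every `τ` acting trivially on `(ℤ̄)^H` modulo the centre of `A` is the product of an
element of `H` and an element of the inertia group at `A`. -/
theorem exists_mul_inertia (H : Subgroup Gb) (hHn : H.Normal) (hHc : IsClosed (H : Set Gb))
    (A : ValuationSubring Lb) {ℓ : ℕ} (hℓ : ℓ.Prime) (hA : A.LiesOverPrime ℓ) (τ : Gb)
    (hτ : ∀ x : Bb, (∀ h ∈ H, h • x = x) → τ • x - x ∈ centre A) :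
    ∃ h ∈ H, ∃ τ2 ∈ A.inertiaSubgroupIn ℚ, τ = h * τ2 := by
  letI : TopologicalSpace Bb := ⊥
  haveI : DiscreteTopology Bb := ⟨rfl⟩
  haveI : ContinuousSMul Gb Bb := by
    rw [continuousSMul_iff_stabilizer_isOpen]
    intro x
    have := stabilizer_isOpen_of_isIntegral (K := ℚ) (L := Lb) (x : Lb)
    convert this using 1
    ext g
    simp only [SetLike.mem_coe, MulAction.mem_stabilizer_iff]
    constructor
    · intro h; exact congrArg Subtype.val h
    · intro h; exact Subtype.ext h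
  haveI : ContinuousSMul H Bb := by
    constructor
    have h1 : Continuous (fun p : Gb × Bb => p.1 • p.2) := continuous_smul
    exact h1.comp ((continuous_subtype_val.comp continuous_fst).prodMk continuous_snd)
  haveI : CompactSpace H := isCompact_iff_compactSpace.mp hHc.isCompact
  let A0 := FixedPoints.subalgebra ℤ Bb H
  haveI : SMulCommClass H A0 Bb := ⟨fun h a b => by
    show h • ((a : Bb) * b) = (a : Bb) * (h • b)
    rw [smul_mul', a.2 h]⟩
  haveI : Algebra.IsInvariant A0 Bb H := ⟨fun b hb => ⟨⟨b, hb⟩, rfl⟩⟩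
  -- normality: `τ` and `τ⁻¹` preserve the `H`-fixed elements
  have hfix : ∀ (ρ : Gb) (x : Bb), (∀ h ∈ H, h • x = x) → ∀ h ∈ H, h • (ρ • x) = ρ • x := by
    intro ρ x hx h hh
    have h1 : (ρ⁻¹ * h * ρ) • x = x := by
      apply hx
      have := hHn.conj_mem h hh ρ⁻¹
      simpa using this
    calc h • (ρ • x) = ρ • ((ρ⁻¹ * h * ρ) • x) := by
          simp only [mul_smul, smul_inv_smul]
      _ = ρ • x := by rw [h1]
  set Q := centre A with hQ
  have hmemA0 : ∀ a : A0, ∀ h ∈ H, h • (a : Bb) = a := fun a h hh => a.2 ⟨h, hh⟩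
  have hunder : (τ • Q).under A0 = Q.under A0 := by
    ext a
    rw [Ideal.mem_comap, Ideal.mem_comap]
    show (a : Bb) ∈ τ • Q ↔ (a : Bb) ∈ Q
    rw [Ideal.mem_pointwise_smul_iff_inv_smul_mem]
    have h1 := hτ (τ⁻¹ • (a : Bb)) (hfix τ⁻¹ _ (hmemA0 a))
    rw [smul_inv_smul] at h1
    constructor
    · intro h
      have := Q.add_mem h1 h
      simpa using this
    · intro h
      have := Q.sub_mem h h1
      simpa using this
  obtain ⟨g, hg⟩ := Algebra.IsInvariant.exists_smul_of_under_eq_of_profinite (A := A0) (G := H)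
    (τ • Q) Q hunder
  set τ1 : Gb := (g : Gb) * τ with hτ1
  have hstab1 : τ1 • Q = Q := by
    rw [hτ1, mul_smul]
    exact hg.symm
  -- `τ1` acts trivially on `A0` modulo `Q`
  have hτ1A0 : ∀ a : A0, τ1 • (a : Bb) - a ∈ Q := by
    intro a
    rw [hτ1, mul_smul, hfix τ _ (hmemA0 a) g g.2]
    exact hτ _ (hmemA0 a)
  let ψ := Ideal.Quotient.stabilizerHom Q (Q.under ℤ) Gb ⟨τ1, hstab1⟩
  have hψ : ∀ b : Bb, ψ (Ideal.Quotient.mk Q b) = Ideal.Quotient.mk Q (τ1 • b) := by
    intro b
    exact Ideal.Quotient.stabilizerHom_apply Q (Q.under ℤ) Gb ⟨τ1, hstab1⟩ b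
  let φ : (Bb ⧸ Q) ≃ₐ[A0 ⧸ Q.under A0] (Bb ⧸ Q) :=
    AlgEquiv.ofRingEquiv (f := ψ.toRingEquiv) (by
      intro r
      obtain ⟨a, rfl⟩ := Ideal.Quotient.mk_surjective r
      show ψ (Ideal.Quotient.mk Q (a : Bb)) = Ideal.Quotient.mk Q (a : Bb)
      rw [hψ, Ideal.Quotient.eq]
      exact hτ1A0 a)
  have hφ : ∀ b : Bb, φ (Ideal.Quotient.mk Q b) = Ideal.Quotient.mk Q (τ1 • b) := hψ
  obtain ⟨γ, hγH, hγQ, hγb⟩ : ∃ γ : Gb, γ ∈ H ∧ γ • Q = Q ∧ ∀ b : Bb, γ • b - τ1 • b ∈ Q := by
    obtain ⟨g', hg'⟩ := Ideal.Quotient.stabilizerHom_surjective_of_profinite (G := H)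
      (Q.under A0) Q φ
    refine ⟨((g' : H) : Gb), (g' : H).2, g'.2, fun b => ?_⟩
    have h1 := DFunLike.congr_fun hg' (Ideal.Quotient.mk Q b)
    rw [Ideal.Quotient.stabilizerHom_apply, hφ, Ideal.Quotient.eq] at h1
    exact h1
  set τ2 : Gb := γ⁻¹ * τ1 with hτ2
  have hinvQ : γ⁻¹ • Q = Q := by
    conv_lhs => rw [← hγQ]
    rw [inv_smul_smul]
  have hstab2 : τ2 • Q = Q := by
    rw [hτ2, mul_smul, hstab1, hinvQ]
  have htriv2 : ∀ b : Bb, τ2 • b - b ∈ Q := by
    intro b
    have h1 : γ⁻¹ • (τ1 • b - γ • b) ∈ γ⁻¹ • Q := by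
      rw [Ideal.smul_mem_pointwise_smul_iff]
      have := Q.neg_mem (hγb b)
      simpa using this
    rw [hinvQ, smul_sub, inv_smul_smul] at h1
    rw [hτ2, mul_smul]
    exact h1
  have h2 : τ2 ∈ A.inertiaSubgroupIn ℚ := S13.global_mem_inertia A hℓ hA τ2 hstab2 htriv2
  refine ⟨(g : Gb)⁻¹ * γ, H.mul_mem (H.inv_mem g.2) hγH, τ2, h2, ?_⟩
  rw [hτ2, hτ1]; group



section level

open NumberField IsDedekindDomain Fermat.Agent.FD

/-- the inertia field is unramified below `P`. -/
theorem ramificationIdx_underH (L : Type*) [Field L] [NumberField L] [IsGalois ℚ L]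
    (P : HeightOneSpectrum (𝓞 L)) :
    (underH (fixedF L (Ideal.inertia Gal(L/ℚ) P.asIdeal)) P).asIdeal.ramificationIdx ℤ = 1 := by
  set U := Ideal.inertia Gal(L/ℚ) P.asIdeal with hU
  have := P.isPrime
  have hp := below_prime L P
  have : Fact (below L P).Prime := ⟨hp⟩
  have hmax : (Ideal.span {(below L P : ℤ)}).IsMaximal := inferInstance
  have : Finite (ℤ ⧸ Ideal.span {(below L P : ℤ)}) := by
    exact Ring.HasFiniteQuotients.finiteQuotient (by simpa using hp.ne_zero)
  have : Finite (Ideal.span {(below L P : ℤ)}).ResidueField := inferInstance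
  have := (underH (fixedF L U) P).isPrime
  have hmax : (underH (fixedF L U) P).asIdeal.IsMaximal := (underH (fixedF L U) P).isMaximal
  have : Finite (𝓞 (fixedF L U) ⧸ (underH (fixedF L U) P).asIdeal) :=
    Ring.HasFiniteQuotients.finiteQuotient (underH (fixedF L U) P).ne_bot
  have : Finite (underH (fixedF L U) P).asIdeal.ResidueField := inferInstance
  have h1 := Ideal.card_inertia_eq_ramificationIdxIn (G := Gal(L/ℚ))
    (Ideal.span {(below L P : ℤ)}) P.asIdeal
  rw [Ideal.ramificationIdxIn_eq_ramificationIdx _ P.asIdeal Gal(L/ℚ)] at h1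
  have h2 := Ideal.card_inertia_eq_ramificationIdxIn (G := U)
    (underH (fixedF L U) P).asIdeal P.asIdeal
  rw [Ideal.ramificationIdxIn_eq_ramificationIdx _ P.asIdeal U] at h2
  have h3 : Nat.card (Ideal.inertia U P.asIdeal) = Nat.card U := by
    have : Ideal.inertia U P.asIdeal = ⊤ := by
      rw [eq_top_iff]
      intro u _ x
      exact u.2 x
    rw [this, Subgroup.card_top]
  have h4 := Ideal.ramificationIdx_tower (R := ℤ) (underH (fixedF L U) P).asIdeal P.asIdeal
  rw [← h1, ← h2, h3] at h4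
  have hpos : 0 < Nat.card U := Nat.card_pos
  exact (Nat.eq_of_mul_eq_mul_right hpos (by rw [one_mul]; exact h4)).symm

/-- an unramified prime: a cofactor of `q`. -/
theorem exists_cofactor (M : Type*) [Field M] [NumberField M] (w : HeightOneSpectrum (𝓞 M))
    {q : ℕ} (hq : q.Prime) (hqw : (q : 𝓞 M) ∈ w.asIdeal)
    (he : w.asIdeal.ramificationIdx ℤ = 1) :
    ∃ t : 𝓞 M, t ∉ w.asIdeal ∧ ∀ x ∈ w.asIdeal, ∃ y : 𝓞 M, t * x = q * y := by
  have := w.isPrime
  have hwmax : w.asIdeal.IsMaximal := w.isMaximal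
  have hmax : (Ideal.span {(q : ℤ)}).IsMaximal :=
    (PrincipalIdealRing.isMaximal_of_irreducible (Nat.prime_iff_prime_int.mp hq).irreducible)
  have hlo : w.asIdeal.LiesOver (Ideal.span {(q : ℤ)}) := by
    constructor
    apply hmax.eq_of_le
    · exact (Ideal.IsPrime.under ℤ w.asIdeal).ne_top
    · rw [Ideal.span_singleton_le_iff_mem, Ideal.mem_comap]
      simpa using hqw
  have hmap : (Ideal.span {(q : ℤ)}).map (algebraMap ℤ (𝓞 M)) = Ideal.span {(q : 𝓞 M)} := by
    rw [Ideal.map_span, Set.image_singleton]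
    simp
  have hp0 : (Ideal.span {(q : ℤ)}).map (algebraMap ℤ (𝓞 M)) ≠ ⊥ := by
    rw [hmap, Ne, Ideal.span_singleton_eq_bot]
    exact_mod_cast hq.ne_zero
  have hc := Ideal.IsDedekindDomain.ramificationIdx_eq_normalizedFactors_count
    (Ideal.span {(q : ℤ)}) w.asIdeal hp0
  obtain ⟨Q, hQ1, hQ2⟩ := Ideal.eq_prime_pow_mul_coprime hp0 w.asIdeal
  rw [← hc, he, pow_one, hmap] at hQ2
  have hnle : ¬ Q ≤ w.asIdeal := by
    intro hle
    rw [sup_of_le_left hle] at hQ1
    exact hwmax.ne_top hQ1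
  obtain ⟨t, htQ, htw⟩ := SetLike.not_le_iff_exists.mp hnle
  refine ⟨t, htw, fun x hx => ?_⟩
  have h1 : x * t ∈ Ideal.span {(q : 𝓞 M)} := by
    rw [hQ2]
    exact Ideal.mul_mem_mul hx htQ
  obtain ⟨y, hy⟩ := Ideal.mem_span_singleton'.mp h1
  exact ⟨y, by rw [mul_comm t x, ← hy, mul_comm]⟩

/-- integral elements lie in every valuation subring. -/
theorem mem_of_isIntegral {L : Type*} [Field L] (B : ValuationSubring L) {x : L}
    (hx : IsIntegral ℤ x) : x ∈ B := by
  have h1 : IsIntegral B x := hx.tower_top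
  obtain ⟨y, hy⟩ := IsIntegrallyClosed.algebraMap_eq_of_integral (R := B) (K := L) h1
  rw [← hy]
  exact y.2

/-- the statement at the level of a Galois number field. -/
theorem div_mem_level (L : Type*) [Field L] [NumberField L] [IsGalois ℚ L]
    (B : ValuationSubring L) {q : ℕ} (hq : q.Prime) (hB : (q : L) ∈ B.nonunits) (x : L)
    (hx : x ∈ B.nonunits)
    (hfix : ∀ σ : Gal(L/ℚ), (∀ b : 𝓞 L, σ (b : L) - (b : L) ∈ B.nonunits) → σ x = x) :
    x / (q : L) ∈ B := by
  -- the centre of `B`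
  let ι : 𝓞 L →+* B := RingHom.codRestrict (algebraMap (𝓞 L) L) B.toSubring
    (fun b => mem_of_isIntegral B (RingOfIntegers.isIntegral_coe b))
  have hιmem : ∀ b : 𝓞 L, b ∈ (IsLocalRing.maximalIdeal B).comap ι ↔ (b : L) ∈ B.nonunits := by
    intro b
    rw [ValuationSubring.mem_nonunits_iff_exists_mem_maximalIdeal]
    constructor
    · intro h
      exact ⟨_, h⟩
    · rintro ⟨_, h⟩
      exact h
  let P : HeightOneSpectrum (𝓞 L) :=
    { asIdeal := (IsLocalRing.maximalIdeal B).comap ι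
      isPrime := Ideal.comap_isPrime _ _
      ne_bot := by
        intro h
        have h1 : (q : 𝓞 L) ∈ (IsLocalRing.maximalIdeal B).comap ι := by
          rw [hιmem]
          simpa using hB
        rw [h, Ideal.mem_bot] at h1
        exact hq.ne_zero (by exact_mod_cast h1) }
  have hP : ∀ b : 𝓞 L, b ∈ P.asIdeal ↔ (b : L) ∈ B.nonunits := hιmem
  set U := Ideal.inertia Gal(L/ℚ) P.asIdeal with hU
  have hxM : x ∈ fixedF L U := by
    intro u
    apply hfix u.1
    intro b
    exact (hP _).mp (u.2 b)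
  set M := fixedF L U with hM
  set w := underH M P with hw
  have hwmem : ∀ a : 𝓞 M, a ∈ w.asIdeal ↔ (((a : M) : L)) ∈ B.nonunits := by
    intro a
    exact hP (algebraMap (𝓞 M) (𝓞 L) a)
  have he : w.asIdeal.ramificationIdx ℤ = 1 := ramificationIdx_underH L P
  have hqw : (q : 𝓞 M) ∈ w.asIdeal := by
    rw [hwmem]
    simpa using hB
  obtain ⟨t, ht, hcof⟩ := exists_cofactor M w hq hqw he
  let BM : ValuationSubring M := B.comap (algebraMap M L)
  have hBMnon : ∀ a : M, a ∈ BM.nonunits ↔ (a : L) ∈ B.nonunits := by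
    intro a
    rw [ValuationSubring.mem_nonunits_iff_or, ValuationSubring.mem_nonunits_iff_or]
    have h1 : a⁻¹ ∈ BM ↔ ((a : L))⁻¹ ∈ B := by
      show algebraMap M L a⁻¹ ∈ B ↔ _
      rw [map_inv₀]
      rfl
    rw [h1]
    have h2 : a = 0 ↔ (a : L) = 0 := by
      constructor
      · rintro rfl; rfl
      · intro h; exact Subtype.ext h
    rw [h2]
  obtain ⟨y, hyint, hy, hyx⟩ := exists_mul_mem BM hq ((hBMnon _).mpr (by simpa using hB))
    ⟨x, hxM⟩ (ValuationSubring.nonunits_subset ((hBMnon ⟨x, hxM⟩).mpr hx))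
  let a : 𝓞 M := ⟨y * ⟨x, hxM⟩, hyx⟩
  have hyB : (y : L) ∈ B := mem_of_isIntegral B (hyint.map (IsScalarTower.toAlgHom ℤ M L))
  have ha : a ∈ w.asIdeal := by
    rw [hwmem]
    show (y : L) * x ∈ B.nonunits
    rw [mul_comm]
    exact nonunits_mul_mem B hx hyB
  obtain ⟨z, hz⟩ := hcof a ha
  have hz' : ((t : M) : L) * ((y : L) * x) = (q : L) * ((z : M) : L) := by
    have h := congrArg (fun c : 𝓞 M => ((c : M) : L)) hz
    have e1 : (((t * a : 𝓞 M) : M) : L) = ((t : M) : L) * ((y : L) * x) := rfl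
    have e2 : ((((q : 𝓞 M) * z : 𝓞 M) : M) : L) = (q : L) * ((z : M) : L) := by simp
    rw [← e1, ← e2]
    exact h
  have hzB : ((z : M) : L) ∈ B :=
    mem_of_isIntegral B ((RingOfIntegers.isIntegral_coe z).map (IsScalarTower.toAlgHom ℤ M L))
  have htB : ((t : M) : L) ∈ B :=
    mem_of_isIntegral B ((RingOfIntegers.isIntegral_coe t).map (IsScalarTower.toAlgHom ℤ M L))
  have ht' : ((t : M) : L) ∉ B.nonunits := fun h => ht ((hwmem t).mpr h)
  have hy' : (y : L) ∉ B.nonunits := fun h => hy ((hBMnon y).mpr h)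
  rw [ValuationSubring.mem_nonunits_iff_or, not_or, not_not] at ht' hy'
  have hq0 : (q : L) ≠ 0 := by exact_mod_cast hq.ne_zero
  have hfin : x / (q : L) = ((z : M) : L) * (((t : M) : L)⁻¹ * ((y : L))⁻¹) := by
    have h1 := ht'.1
    have h2 := hy'.1
    field_simp
    linear_combination hz'
  rw [hfin]
  exact B.mul_mem _ _ hzB (B.mul_mem _ _ ht'.2 hy'.2)

end level

/-- nonunits of a comap along the inclusion of an intermediate field. -/
theorem mem_nonunits_comap (A : ValuationSubring Lb) (L : IntermediateField ℚ Lb) (a : L) :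
    a ∈ (A.comap (algebraMap L Lb)).nonunits ↔ (a : Lb) ∈ A.nonunits := by
  rw [ValuationSubring.mem_nonunits_iff_or, ValuationSubring.mem_nonunits_iff_or]
  have h1 : a⁻¹ ∈ A.comap (algebraMap L Lb) ↔ ((a : Lb))⁻¹ ∈ A := by
    show algebraMap L Lb a⁻¹ ∈ A ↔ _
    rw [map_inv₀]
    rfl
  rw [h1]
  have h2 : a = 0 ↔ (a : Lb) = 0 := by
    constructor
    · rintro rfl; rfl
    · intro h; exact Subtype.ext h
  rw [h2]

open NumberField in
/-- **D3**: a number field fixed pointwise by the inertia group at `A ∣ q` is unramified at `A`. -/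
theorem div_mem_of_fixed (A : ValuationSubring Lb) {q : ℕ} (hq : q.Prime)
    (hA : A.LiesOverPrime q) (K₀ : IntermediateField ℚ Lb) [FiniteDimensional ℚ K₀]
    (hK : ∀ x ∈ K₀, ∀ τ ∈ A.inertiaSubgroupIn ℚ, τ x = x) {x : Lb} (hx : x ∈ K₀)
    (hxA : x ∈ A.nonunits) : x / (q : Lb) ∈ A := by
  let L : IntermediateField ℚ Lb := IntermediateField.normalClosure ℚ K₀ Lb
  haveI : FiniteDimensional ℚ L := inferInstance
  haveI : Normal ℚ Lb := (isGalois_Lb).to_normal
  haveI : Normal ℚ L := normalClosure.normal ℚ K₀ Lb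
  haveI : IsGalois ℚ L := {}
  haveI : NumberField L := { to_charZero := inferInstance, to_finiteDimensional := inferInstance }
  have hKL : K₀ ≤ L := IntermediateField.le_normalClosure K₀
  have hopen : IsOpen (L.fixingSubgroup : Set Gb) := L.fixingSubgroup_isOpen
  have hclosed : IsClosed (L.fixingSubgroup : Set Gb) := Subgroup.isClosed_of_isOpen _ hopen
  have hnormal : L.fixingSubgroup.Normal := (InfiniteGalois.normal_iff_isGalois L).mpr inferInstance
  have h := div_mem_level L (A.comap (algebraMap L Lb)) hq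
    ((mem_nonunits_comap A L _).mpr (by
      have hA' : (q : Lb) ∈ A.nonunits := hA
      simpa using hA')) ⟨x, hKL hx⟩
    ((mem_nonunits_comap A L _).mpr hxA) ?_
  · have h1 : algebraMap L Lb ((⟨x, hKL hx⟩ : L) / (q : L)) ∈ A := h
    rw [map_div₀, map_natCast] at h1
    exact h1
  · intro σ hσ
    obtain ⟨τ', hτ'⟩ := AlgEquiv.restrictNormalHom_surjective Lb σ
    have hcomm : ∀ a : L, τ' (a : Lb) = ((σ a : L) : Lb) := by
      intro a
      rw [← hτ']
      exact (AlgEquiv.restrictNormal_commutes τ' L a).symm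
    obtain ⟨h, hh, τ2, hτ2, rfl⟩ := exists_mul_inertia L.fixingSubgroup hnormal hclosed A hq hA τ' (by
      intro b hb
      have hbL : (b : Lb) ∈ L := by
        have h1 : (b : Lb) ∈ IntermediateField.fixedField L.fixingSubgroup := by
          intro g
          exact congrArg Subtype.val (hb g.1 g.2)
        rwa [InfiniteGalois.fixedField_fixingSubgroup] at h1
      have hbint : IsIntegral ℤ (⟨b, hbL⟩ : L) := by
        have h1 : IsIntegral ℤ (algebraMap L Lb ⟨b, hbL⟩) := b.2
        exact (isIntegral_algebraMap_iff (algebraMap L Lb).injective).mp h1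
      have h1 := hσ ⟨⟨b, hbL⟩, hbint⟩
      rw [mem_nonunits_comap] at h1
      rw [mem_centre_iff]
      show τ' (b : Lb) - (b : Lb) ∈ A.nonunits
      rw [hcomm ⟨b, hbL⟩]
      exact h1)
    apply Subtype.ext
    rw [← hcomm]
    show h (τ2 x) = x
    rw [hK x hx τ2 hτ2]
    exact hh ⟨x, hKL hx⟩

end Fermat.Agent.S36.Unram
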