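import Fermat.Agent.S36.Descent.K0

set_option autoImplicit false

/-!
# S36, chapter D36 (c): the residue field of `R₀ = A ∩ K₀`

* `exists_residue` : `A` has residue degree one over `R₀`;
* `exists_root_mod` : the residue field of `R₀` is algebraically closed.
-/

noncomputable section

namespace Fermat.Agent.S36.Descent

open AlgebraicCurve ModularCurve IntermediateField Polynomial
open Fermat.Agent.S24 (Kb FN iotaK)
open Fermat.Agent.GES (GQ galF)

namespace K0

theorem frob_mem {A : ValuationSubring Kb} {σ : GQ} {q : ℕ} (hσ : A.IsFrobeniusAt σ q) {x : Kb}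
    (hx : x ∈ A) : σ x ∈ A := by
  have h1 := S31.frob_sub_pow_mem_nonunits hσ hx
  have h2 : σ x - x ^ q ∈ A := by
    rw [ValuationSubring.mem_nonunits_iff] at h1
    exact (A.valuation_le_one_iff _).1 h1.le
  have : σ x = (σ x - x ^ q) + x ^ q := by ring
  rw [this]
  exact add_mem h2 (pow_mem hx q)

theorem pow_sub_pow_mem (A : ValuationSubring Kb) {u v : Kb} (hu : u ∈ A) (hv : v ∈ A)
    (h : u - v ∈ A.nonunits) (n : ℕ) : u ^ n - v ^ n ∈ A.nonunits := by
  rw [← Commute.mul_geom_sum₂ (Commute.all u v)]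
  exact S54.nonunits_mul_mem A h
    (sum_mem fun i _ => mul_mem (pow_mem hu _) (pow_mem hv _))

theorem frob_pow {A : ValuationSubring Kb} {σ : GQ} {q : ℕ} (hσ : A.IsFrobeniusAt σ q) {x : Kb}
    (hx : x ∈ A) (n : ℕ) : (σ ^ n) x ∈ A ∧ (σ ^ n) x - x ^ (q ^ n) ∈ A.nonunits := by
  induction n with
  | zero =>
    refine ⟨by simpa using hx, ?_⟩
    simp
  | succ n ih =>
    obtain ⟨h1, h2⟩ := ih
    have h3 : (σ ^ (n + 1)) x = σ ((σ ^ n) x) := by
      rw [pow_succ', AlgEquiv.mul_apply]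
    rw [h3]
    refine ⟨frob_mem hσ h1, ?_⟩
    have h4 := S31.frob_sub_pow_mem_nonunits hσ h1
    have h5 := pow_sub_pow_mem A h1 (pow_mem hx _) h2 q
    have h6 : σ ((σ ^ n) x) - x ^ q ^ (n + 1) =
        (σ ((σ ^ n) x) - ((σ ^ n) x) ^ q) + (((σ ^ n) x) ^ q - (x ^ q ^ n) ^ q) := by
      rw [pow_succ q n, pow_mul]
      ring
    rw [h6]
    exact S54.nonunits_add A h4 h5

/-- some positive power of `σ` fixes `a`. -/
theorem exists_pow_fix (σ : GQ) (a : Kb) : ∃ n : ℕ, 0 < n ∧ (σ ^ n) a = a := by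
  have hint : IsIntegral ℚ a := (AlgebraicClosure.isAlgebraic ℚ).isIntegral.isIntegral a
  have hfin : ((minpoly ℚ a).rootSet Kb).Finite := Polynomial.rootSet_finite _ _
  have hmem : ∀ i : ℕ, (σ ^ i) a ∈ (minpoly ℚ a).rootSet Kb := by
    intro i
    rw [Polynomial.mem_rootSet]
    refine ⟨minpoly.ne_zero hint, ?_⟩
    rw [← AlgEquiv.coe_toAlgHom, Polynomial.aeval_algHom_apply, minpoly.aeval, map_zero]
  have : Finite ((minpoly ℚ a).rootSet Kb) := hfin
  obtain ⟨i, j, hij, hf⟩ := Finite.exists_ne_map_eq_of_infinite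
    (fun i : ℕ => (⟨(σ ^ i) a, hmem i⟩ : (minpoly ℚ a).rootSet Kb))
  have hf' : (σ ^ i) a = (σ ^ j) a := congrArg Subtype.val hf
  have key : ∀ i j : ℕ, i < j → (σ ^ i) a = (σ ^ j) a → ∃ n : ℕ, 0 < n ∧ (σ ^ n) a = a := by
    intro i j hlt h
    refine ⟨j - i, by omega, ?_⟩
    have h1 : σ ^ j = σ ^ i * σ ^ (j - i) := by rw [← pow_add]; congr 1; omega
    rw [h1, AlgEquiv.mul_apply] at h
    exact ((σ ^ i).injective h).symm
  rcases lt_or_gt_of_ne hij with h | h
  · exact key i j h hf'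
  · exact key j i h hf'.symm

/-- if a product of elements of `A` is a nonunit, one of the factors is. -/
theorem exists_mem_nonunits_of_prod (A : ValuationSubring Kb) {α : Type*} (s : Finset α)
    (g : α → Kb) (hg : ∀ i ∈ s, g i ∈ A) (h : ∏ i ∈ s, g i ∈ A.nonunits) :
    ∃ i ∈ s, g i ∈ A.nonunits := by
  by_contra hcon
  push Not at hcon
  rw [ValuationSubring.mem_nonunits_iff, map_prod] at h
  have h1 : ∀ i ∈ s, A.valuation (g i) = 1 := by
    intro i hi
    have h2 := hcon i hi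
    rw [ValuationSubring.mem_nonunits_iff, not_lt] at h2
    exact le_antisymm ((A.valuation_le_one_iff _).2 (hg i hi)) h2
  rw [Finset.prod_congr rfl h1, Finset.prod_const_one] at h
  exact lt_irrefl _ h

/-- every element of `A` is congruent to `0` or to a root of unity of order prime to `q`. -/
theorem exists_teichmuller (A : ValuationSubring Kb) {q : ℕ} (hq : q.Prime) (hA : A.LiesOverPrime q)
    {a : Kb} (ha : a ∈ A) (ha' : a ∉ A.nonunits) :
    ∃ (r : ℕ) (ξ : Kb), ¬ q ∣ r ∧ ξ ^ r = 1 ∧ a - ξ ∈ A.nonunits := by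
  obtain ⟨σ, hσ⟩ := S54.exists_isFrobeniusAt A hq hA
  obtain ⟨n, hn, hfix⟩ := exists_pow_fix σ a
  have h1 := (frob_pow hσ ha n).2
  rw [hfix] at h1
  have hqn : 1 < q ^ n := Nat.one_lt_pow hn.ne' hq.one_lt
  set r := q ^ n - 1 with hr
  have hr0 : 0 < r := by omega
  have hqr : ¬ q ∣ r := by
    intro hdvd
    have h2 : q ∣ q ^ n := dvd_pow_self q hn.ne'
    have h3 : q ∣ 1 := by
      have := (Nat.dvd_sub h2 hdvd)
      rwa [show q ^ n - r = 1 by omega] at this
    exact hq.one_lt.ne' (Nat.dvd_one.1 h3)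
  have hainv : a⁻¹ ∈ A := by
    rw [ValuationSubring.mem_nonunits_iff, not_lt] at ha'
    have hv : A.valuation a = 1 := le_antisymm ((A.valuation_le_one_iff _).2 ha) ha'
    rw [← A.valuation_le_one_iff, map_inv₀, hv, inv_one]
  have ha0 : a ≠ 0 := by
    rintro rfl
    apply ha'
    simp
  have h2 : a ^ r - 1 ∈ A.nonunits := by
    have h3 : a ^ r - 1 = -((a - a ^ q ^ n) * a⁻¹) := by
      have : a ^ q ^ n = a ^ r * a := by rw [← pow_succ]; congr 1; omega
      rw [this]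
      field_simp
      ring
    rw [h3]
    exact S54.nonunits_neg A (S54.nonunits_mul_mem A h1 hainv)
  have : NeZero r := ⟨hr0.ne'⟩
  obtain ⟨ζ, hζ⟩ := HasEnoughRootsOfUnity.exists_primitiveRoot Kb r
  have h3 := congrArg (Polynomial.eval a) (X_pow_sub_one_eq_prod hr0 hζ)
  simp only [eval_sub, eval_pow, eval_X, eval_one, eval_prod, eval_C] at h3
  rw [h3] at h2
  obtain ⟨ξ, hξ, hξa⟩ := exists_mem_nonunits_of_prod A _ _ (by
    intro ξ hξ
    have hξ1 : ξ ^ r = 1 := (Polynomial.mem_nthRootsFinset hr0 1).1 hξ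
    exact sub_mem ha (S31.mem_of_pow_eq_one A hr0.ne' hξ1)) h2
  exact ⟨r, ξ, hqr, (Polynomial.mem_nthRootsFinset hr0 1).1 hξ, hξa⟩

end K0

namespace IsInertiaField

variable {A : ValuationSubring Kb} {K : Type} [Field K] {ι : K →+* Kb} (hι : IsInertiaField A ι)
  {q : ℕ} (hq : q.Prime) (hA : A.LiesOverPrime q)

include hι hq hA

/-- `A` has residue degree one over `R₀`. -/
theorem exists_residue {a : Kb} (ha : a ∈ A) : ∃ z : K, ι z ∈ A ∧ a - ι z ∈ A.nonunits := by
  by_cases ha' : a ∈ A.nonunits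
  · exact ⟨0, by rw [map_zero]; exact zero_mem _, by rwa [map_zero, sub_zero]⟩
  · obtain ⟨r, ξ, hr, hξ, h⟩ := K0.exists_teichmuller A hq hA ha ha'
    obtain ⟨z, rfl⟩ := hι.exists_of_fixed_const (inertia_fixes_root A hq hA hr hξ)
    have hr0 : r ≠ 0 := fun h0 => hr (h0 ▸ dvd_zero q)
    exact ⟨z, S31.mem_of_pow_eq_one A hr0 hξ, h⟩

/-- the residue field of `R₀` is algebraically closed. -/
theorem exists_root_mod (P : Polynomial (A.comap ι)) (hP : P.Monic) (hdeg : P.natDegree ≠ 0) :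
    ∃ z : A.comap ι, P.eval z ∈ IsLocalRing.maximalIdeal (A.comap ι) := by
  let φ : A.comap ι →+* A :=
    { toFun := fun x => ⟨ι x, x.2⟩
      map_one' := Subtype.ext (map_one ι)
      map_zero' := Subtype.ext (map_zero ι)
      map_mul' := fun x y => Subtype.ext (map_mul ι (x : K) (y : K))
      map_add' := fun x y => Subtype.ext (map_add ι (x : K) (y : K)) }
  set P' : Polynomial A := P.map φ with hP'
  have hP'm : P'.Monic := hP.map φ
  have hnd : P'.natDegree = P.natDegree := hP.natDegree_map φ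
  have hdeg' : (P'.map (algebraMap A Kb)).degree ≠ 0 := by
    rw [Polynomial.degree_eq_natDegree (hP'm.map _).ne_zero, hP'm.natDegree_map, hnd]
    exact_mod_cast hdeg
  obtain ⟨a, ha⟩ := IsAlgClosed.exists_root _ hdeg'
  have hint : IsIntegral A a := ⟨P', hP'm, by
    rw [← Polynomial.eval_map]
    exact ha⟩
  obtain ⟨a', rfl⟩ := IsIntegrallyClosed.isIntegral_iff.mp hint
  have ha0 : P'.eval a' = 0 := by
    apply IsFractionRing.injective A Kb
    rw [map_zero, ← Polynomial.eval_map_apply]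
    exact ha
  obtain ⟨z, hzA, hz⟩ := hι.exists_residue hq hA a'.2
  have hzR : z ∈ A.comap ι := hzA
  set z' : A.comap ι := ⟨z, hzR⟩ with hz'
  refine ⟨z', ?_⟩
  rw [IsLocalRing.mem_maximalIdeal, mem_nonunits_iff, isUnit_iff, not_not]
  have h1 : a' - φ z' ∣ P'.eval a' - P'.eval (φ z') := Polynomial.sub_dvd_eval_sub _ _ _
  rw [ha0, zero_sub, hP', Polynomial.eval_map_apply] at h1
  obtain ⟨c, hc⟩ := h1
  have h2 : ι ((P.eval z' : A.comap ι) : K) = -(((a' : Kb) - ι z) * (c : Kb)) := by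
    have h3 : ((-(φ (P.eval z')) : A) : Kb) = (((a' - φ z') * c : A) : Kb) := congrArg Subtype.val hc
    have h4 : ((-(φ (P.eval z')) : A) : Kb) = -ι ((P.eval z' : A.comap ι) : K) := rfl
    have h5 : (((a' - φ z') * c : A) : Kb) = ((a' : Kb) - ι z) * (c : Kb) := rfl
    rw [h4, h5] at h3
    rw [← h3, neg_neg]
  rw [h2]
  exact S54.nonunits_neg A (S54.nonunits_mul_mem A hz c.2)

end IsInertiaField

end Fermat.Agent.S36.Descent
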