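import Fermat.Agent.S36.Descent.Pack
import Fermat.Agent.S18.B.DVR

set_option autoImplicit false

/-!
# S36, chapter D36: the inertia field `K₀ = Fix(I_A)` as base field

`K₀` is used as an OPAQUE abstract type `K` with `ι : K →+* ℚ̄` and `hι : IsInertiaField A ι`.
`R₀ = A.comap ι` is a DVR with uniformiser `q`; its units are `m`-th powers (`q ∤ m`); it contains the roots of
unity of order prime to `q`; `A` has residue degree one over `R₀`; classes fixed by inertia descend to `F_{N,K₀}`.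
-/

noncomputable section

namespace Fermat.Agent.S36.Descent

open AlgebraicCurve ModularCurve IntermediateField
open Fermat.Agent.S24 (Kb FN iotaK)
open Fermat.Agent.GES (GQ galF)

/-- `ι` identifies `K` with the fixed field of the inertia group of `A`. -/
def IsInertiaField (A : ValuationSubring Kb) {K : Type} [Field K] (ι : K →+* Kb) : Prop :=
  ∀ a : Kb, (∃ b, ι b = a) ↔ ∀ τ ∈ A.inertiaSubgroupIn ℚ, τ a = a

theorem exists_inertiaField (A : ValuationSubring Kb) :
    ∃ (K : Type) (_ : Field K) (_ : CharZero K) (ι : K →+* Kb), IsInertiaField A ι := by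
  refine ⟨IntermediateField.fixedField (A.inertiaSubgroupIn ℚ), inferInstance, inferInstance,
    (IntermediateField.fixedField (A.inertiaSubgroupIn ℚ)).val.toRingHom, fun a => ?_⟩
  rw [← IntermediateField.mem_fixedField_iff]
  exact ⟨by rintro ⟨b, rfl⟩; exact b.2, fun h => ⟨⟨a, h⟩, rfl⟩⟩

namespace K0

/-- a nonzero element of `ℚ̄` is not infinitely divisible by `q` in `A`. -/
theorem exists_not_mem (A : ValuationSubring Kb) {q : ℕ} (hq : q.Prime) (hA : A.LiesOverPrime q)
    {x : Kb} (hx : x ≠ 0) : ∃ n : ℕ, x / (q : Kb) ^ n ∉ A := by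
  have := S54.isAlgebraic_Lb
  have halg : IsAlgebraic ℤ x⁻¹ :=
    (IsFractionRing.isAlgebraic_iff ℤ ℚ Kb).mpr (Algebra.IsAlgebraic.isAlgebraic x⁻¹)
  obtain ⟨D, hD0, hD⟩ := halg.exists_integral_multiple
  have hDA : (D : Kb) * x⁻¹ ∈ A := by
    have := S18.DVR.mem_of_isIntegral A hD
    rwa [zsmul_eq_mul] at this
  have hq0 : (q : Kb) ≠ 0 := Nat.cast_ne_zero.2 hq.ne_zero
  -- `D = q^k D'`
  obtain ⟨k, D', hD', hDk⟩ : ∃ (k : ℕ) (D' : ℤ), ¬ (q : ℤ) ∣ D' ∧ D = (q : ℤ) ^ k * D' := by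
    have hfin : FiniteMultiplicity (q : ℤ) D :=
      Int.finiteMultiplicity_iff.2 ⟨by simpa using hq.ne_one, hD0⟩
    obtain ⟨D', hD'⟩ := pow_multiplicity_dvd (q : ℤ) D
    refine ⟨multiplicity (q : ℤ) D, D', fun hdvd => ?_, hD'⟩
    obtain ⟨E, rfl⟩ := hdvd
    apply hfin.not_pow_dvd_of_multiplicity_lt (Nat.lt_succ_self _)
    exact ⟨E, by conv_lhs => rw [hD']
                 rw [Nat.succ_eq_add_one, pow_succ]; ring⟩
  refine ⟨k + 1, fun hmem => ?_⟩
  have h1 : x / (q : Kb) ^ (k + 1) * ((D : Kb) * x⁻¹) ∈ A := mul_mem hmem hDA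
  have h2 : x / (q : Kb) ^ (k + 1) * ((D : Kb) * x⁻¹) = (D' : Kb) / q := by
    rw [hDk]
    push_cast
    field_simp
    ring
  rw [h2] at h1
  have h3 : (D' : Kb) ∈ A.nonunits := by
    have : (D' : Kb) = (q : Kb) * ((D' : Kb) / q) := by field_simp
    rw [this]
    exact S54.nonunits_mul_mem A hA h1
  exact S54.intCast_not_mem_nonunits A hq hA D' hD' h3

/-- `F_N` over `ℚ̄` in the sense of S24 is contained in `modularFunctionFieldFullC ℚ̄ N`. -/
theorem mem_fullC (N : ℕ) [NeZero N] (g : FN N) :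
    (g : LaurentSeries Kb) ∈ modularFunctionFieldFullC Kb N := by
  obtain ⟨K₁, -, hg⟩ := S18.KPack.exists_mem_G N g.1 g.2
  rw [Rat.mem_full_iff]
  refine Subfield.closure_mono ?_ hg
  apply Set.union_subset_union_left
  rintro _ ⟨c, -, rfl⟩
  exact ⟨c, HahnSeries.C_apply c⟩

/-- a Laurent series `t` with `t ^ m = 1` and leading coefficient `1` is `1`. -/
theorem eq_one_of_pow_eq_one {k : Type*} [Field k] [CharZero k] (t : LaurentSeries k) {m : ℕ}
    (hm : 0 < m) (ht : t ^ m = 1) (hlc : t.leadingCoeff = 1) : t = 1 := by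
  have hord : t.order = 0 := by
    have h1 := NV.Canon.order_pow' t m
    rw [ht, HahnSeries.order_one] at h1
    have hm' : (m : ℤ) ≠ 0 := by exact_mod_cast hm.ne'
    exact (mul_eq_zero.1 h1.symm).resolve_left hm'
  have h1 : (t - 1) * ∑ i ∈ Finset.range m, t ^ i = 0 := by
    rw [mul_geom_sum, ht, sub_self]
  have h2 : (∑ i ∈ Finset.range m, t ^ i) ≠ 0 := by
    intro h0
    have h3 := congrArg (fun y : LaurentSeries k => y.coeff 0) h0
    simp only [HahnSeries.coeff_sum, HahnSeries.coeff_zero] at h3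
    have h4 : ∀ i ∈ Finset.range m, (t ^ i).coeff 0 = 1 := by
      intro i _
      have h5 : (t ^ i).order = 0 := by rw [NV.Canon.order_pow', hord, mul_zero]
      rw [← h5, ← HahnSeries.leadingCoeff_eq, NV.Canon.leadingCoeff_pow', hlc, one_pow]
    rw [Finset.sum_congr rfl h4] at h3
    simp at h3
    exact hm.ne' h3
  exact sub_eq_zero.1 ((mul_eq_zero.1 h1).resolve_right h2)

end K0

namespace IsInertiaField

variable {A : ValuationSubring Kb} {K : Type} [Field K] {ι : K →+* Kb} (hι : IsInertiaField A ι)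
  {q : ℕ} (hq : q.Prime) (hA : A.LiesOverPrime q)

include hι

theorem fixed (a : K) : ∀ τ ∈ A.inertiaSubgroupIn ℚ, τ (ι a) = ι a := (hι (ι a)).1 ⟨a, rfl⟩

theorem exists_of_fixed_const {a : Kb} (h : ∀ τ ∈ A.inertiaSubgroupIn ℚ, τ a = a) : ∃ b, ι b = a :=
  (hι a).2 h

include hq hA

/-- `q` is a uniformiser of `R₀`. -/
theorem uniformiser (a : K) (ha : ι a ∈ A.nonunits) : ∃ b : K, ι b ∈ A ∧ a = (q : K) * b := by
  have hfd : FiniteDimensional ℚ ℚ⟮ι a⟯ := IntermediateField.adjoin.finiteDimensional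
    ((AlgebraicClosure.isAlgebraic ℚ).isIntegral.isIntegral (ι a))
  have hle : ℚ⟮ι a⟯ ≤ IntermediateField.fixedField (A.inertiaSubgroupIn ℚ) := by
    rw [IntermediateField.adjoin_simple_le_iff, IntermediateField.mem_fixedField_iff]
    exact hι.fixed a
  have h := Unram.div_mem_of_fixed A hq hA ℚ⟮ι a⟯
    (fun x hx τ hτ => (IntermediateField.mem_fixedField_iff _ _).1 (hle hx) τ hτ)
    (IntermediateField.mem_adjoin_simple_self ℚ (ι a)) ha
  have hq0 : (q : K) ≠ 0 := by
    intro h0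
    have : (q : Kb) = 0 := by rw [← map_natCast ι, h0, map_zero]
    exact Nat.cast_ne_zero.2 hq.ne_zero this
  refine ⟨a / q, ?_, by rw [mul_div_cancel₀ _ hq0]⟩
  rw [map_div₀, map_natCast]
  exact h

omit hι hq hA in
theorem isUnit_iff (x : A.comap ι) : IsUnit x ↔ ι x ∉ A.nonunits := by
  rw [← S18.DVR.mem_nonunits_comap, ValuationSubring.coe_mem_nonunits_iff,
    IsLocalRing.mem_maximalIdeal, mem_nonunits_iff, not_not]

theorem maximalIdeal_eq :
    IsLocalRing.maximalIdeal (A.comap ι) = Ideal.span {(q : A.comap ι)} := by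
  apply le_antisymm
  · intro x hx
    rw [IsLocalRing.mem_maximalIdeal, mem_nonunits_iff, isUnit_iff, not_not] at hx
    obtain ⟨b, hb, hxb⟩ := hι.uniformiser hq hA x hx
    rw [Ideal.mem_span_singleton]
    exact ⟨⟨b, hb⟩, Subtype.ext (by rw [hxb]; rfl)⟩
  · rw [Ideal.span_singleton_le_iff_mem, IsLocalRing.mem_maximalIdeal, mem_nonunits_iff, isUnit_iff,
      not_not]
    have : ι ((q : A.comap ι) : K) = (q : Kb) := by
      rw [show ((q : A.comap ι) : K) = (q : K) from rfl, map_natCast]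
    rw [this]
    exact hA

omit hι hA in
theorem natCast_ne_zero : (q : A.comap ι) ≠ 0 := by
  intro h0
  have h1 : ((q : A.comap ι) : K) = 0 := by rw [h0]; rfl
  have : (q : Kb) = 0 := by
    rw [← map_natCast ι, show (q : K) = ((q : A.comap ι) : K) from rfl, h1, map_zero]
  exact Nat.cast_ne_zero.2 hq.ne_zero this

/-- `q` is a prime element of `R₀`. -/
theorem irreducible_q : Irreducible (q : A.comap ι) := by
  have h1 : (Ideal.span {(q : A.comap ι)}).IsPrime := by
    rw [← hι.maximalIdeal_eq hq hA]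
    exact (IsLocalRing.maximalIdeal.isMaximal _).isPrime
  exact ((Ideal.span_singleton_prime (natCast_ne_zero hq)).1 h1).irreducible

/-- `R₀` is a discrete valuation ring. -/
theorem isDVR : IsDiscreteValuationRing (A.comap ι) := by
  classical
  apply IsDiscreteValuationRing.ofHasUnitMulPowIrreducibleFactorization
  refine ⟨(q : A.comap ι), hι.irreducible_q hq hA, fun {x} hx => ?_⟩
  have hx0 : ι (x : K) ≠ 0 := by
    rw [Ne, map_eq_zero]
    exact fun h => hx (Subtype.ext h)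
  have hex := K0.exists_not_mem A hq hA hx0
  have hq0 : (q : K) ≠ 0 := by
    have := natCast_ne_zero (A := A) (ι := ι) hq
    exact fun h => this (Subtype.ext h)
  have hn1 : Nat.find hex ≠ 0 := by
    intro h0
    have := Nat.find_spec hex
    rw [h0, pow_zero, div_one] at this
    exact this x.2
  obtain ⟨k, hk⟩ := Nat.exists_eq_succ_of_ne_zero hn1
  have hkA : ι (x : K) / (q : Kb) ^ k ∈ A := by
    have := Nat.find_min hex (m := k) (by omega)
    rwa [not_not] at this
  have hmap : ∀ j : ℕ, ι ((x : K) / (q : K) ^ j) = ι (x : K) / (q : Kb) ^ j := by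
    intro j
    rw [map_div₀, map_pow, map_natCast]
  let u : A.comap ι := ⟨(x : K) / (q : K) ^ k, by
    show ι _ ∈ A
    rw [hmap]
    exact hkA⟩
  have hu : IsUnit u := by
    rw [isUnit_iff]
    intro hnon
    obtain ⟨b, hb, hxb⟩ := hι.uniformiser hq hA _ hnon
    apply Nat.find_spec hex
    rw [hk, ← hmap]
    have : (x : K) / (q : K) ^ (k + 1) = b := by
      have h2 : (x : K) / (q : K) ^ k = (q : K) * b := hxb
      rw [pow_succ, ← div_div, h2, mul_div_cancel_left₀ _ hq0]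
    rw [Nat.succ_eq_add_one, this]
    exact hb
  obtain ⟨u', hu'⟩ := hu
  refine ⟨k, u', Subtype.ext ?_⟩
  rw [hu']
  show ((q : K)) ^ k * ((x : K) / (q : K) ^ k) = x
  rw [mul_div_cancel₀ _ (pow_ne_zero _ hq0)]

/-- every unit of `R₀` is an `m`-th power, `q ∤ m`. -/
theorem exists_root_unit {m : ℕ} (hm : ¬ q ∣ m) {u : K} (hu : ι u ∈ A) (hu' : ι u ∉ A.nonunits) :
    ∃ y : K, y ^ m = u := by
  have hm0 : m ≠ 0 := fun h0 => hm (h0 ▸ dvd_zero q)
  obtain ⟨y, hy⟩ := IsAlgClosed.exists_pow_nat_eq (ι u) (Nat.pos_of_ne_zero hm0)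
  have hv1 : A.valuation (ι u) = 1 := by
    rw [ValuationSubring.mem_nonunits_iff, not_lt] at hu'
    exact le_antisymm ((A.valuation_le_one_iff _).2 hu) hu'
  have hvy : A.valuation y = 1 := by
    have h1 : A.valuation y ^ m = 1 := by rw [← map_pow, hy, hv1]
    exact (pow_eq_one_iff_of_nonneg zero_le hm0).mp h1
  have hyA : y ∈ A := (A.valuation_le_one_iff _).1 hvy.le
  have hy0 : y ≠ 0 := by
    rintro rfl
    rw [map_zero] at hvy
    exact zero_ne_one hvy
  have hyinv : y⁻¹ ∈ A := by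
    rw [← A.valuation_le_one_iff, map_inv₀, hvy, inv_one]
  obtain ⟨b, hb⟩ := hι.exists_of_fixed_const (a := y) (by
    intro τ hτ
    have h1 := S05.sub_mem_nonunits_of_mem_inertia hτ hyA
    have h2 : τ y * y⁻¹ = 1 := by
      apply S31.eq_of_sub_mem_nonunits hq hA hm (a := τ y * y⁻¹) (b := 1)
      · rw [mul_pow, ← map_pow, hy, hι.fixed u τ hτ, inv_pow, hy]
        exact mul_inv_cancel₀ (by rw [← hy]; exact pow_ne_zero _ hy0)
      · exact one_pow m
      · have : τ y * y⁻¹ - 1 = (τ y - y) * y⁻¹ := by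
          rw [sub_mul, mul_inv_cancel₀ hy0]
        rw [this]
        exact S54.nonunits_mul_mem A h1 hyinv
    field_simp at h2
    exact h2)
  refine ⟨b, ι.injective ?_⟩
  rw [map_pow, hb, hy]

/-- `K₀` contains the roots of unity of order prime to `q`. -/
theorem exists_primitiveRoot {r : ℕ} (hr : ¬ q ∣ r) : ∃ ζ : K, IsPrimitiveRoot ζ r := by
  have hr0 : r ≠ 0 := fun h0 => hr (h0 ▸ dvd_zero q)
  have : NeZero r := ⟨hr0⟩
  obtain ⟨ζ, hζ⟩ := HasEnoughRootsOfUnity.exists_primitiveRoot Kb r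
  obtain ⟨ζ', rfl⟩ := hι.exists_of_fixed_const (inertia_fixes_root A hq hA hr hζ.pow_eq_one)
  exact ⟨ζ', hζ.of_map_of_injective ι.injective⟩

omit hq hA in
/-- an element of `F_N` fixed by inertia is defined over `K₀`. -/
theorem exists_of_fixed (N : ℕ) [NeZero N] (g : FN N)
    (hg : ∀ τ ∈ A.inertiaSubgroupIn ℚ, galF N τ g = g) :
    ∃ u : modularFunctionFieldFullC K N, S18.toFN ι N u = g := by
  obtain ⟨x, hx⟩ := Rat.exists_coeffMap_eq ι g.1 (fun n => by
    apply hι.exists_of_fixed_const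
    intro τ hτ
    have h1 := congrArg (fun y : FN N => (y : LaurentSeries Kb).coeff n) (hg τ hτ)
    simp only [GES.coe_galF, coeffMap_coeff] at h1
    exact h1)
  have hxm : x ∈ modularFunctionFieldFullC K N := by
    apply Rat.mem_of_coeffMap_mem ι
    rw [hx]
    exact K0.mem_fullC N g
  exact ⟨⟨x, hxm⟩, Subtype.ext hx⟩

omit hι hq hA in
theorem galF_toFN (hι : IsInertiaField A ι) (N : ℕ) [NeZero N] (u : modularFunctionFieldFullC K N) :
    ∀ τ ∈ A.inertiaSubgroupIn ℚ, galF N τ (S18.toFN ι N u) = S18.toFN ι N u := by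
  intro τ hτ
  apply Subtype.ext
  rw [GES.coe_galF, S18.toFN_coe]
  ext n
  rw [coeffMap_coeff, coeffMap_coeff]
  exact hι.fixed _ τ hτ

omit hq hA in
/-- **descent to `K₀`**: a class fixed by inertia has a representative over `K₀` with leading coefficient `1`. -/
theorem exists_descent (N m : ℕ) [NeZero N] (hm : 0 < m) (f : FN N) (hf : f ≠ 0)
    (hI : ∀ σ ∈ A.inertiaSubgroupIn ℚ, ∃ w : FN N, w ≠ 0 ∧ galF N σ f = f * w ^ m) :
    ∃ (u : modularFunctionFieldFullC K N) (w : FN N), w ≠ 0 ∧ S18.toFN ι N u = f * w ^ m ∧ u ≠ 0 ∧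
      (u : LaurentSeries K).leadingCoeff = 1 := by
  obtain ⟨g, hg0, ⟨w, hw0, hgw⟩, hlc, hg⟩ := exists_fixed_rep N m hm f hf
  obtain ⟨u, hu⟩ := hι.exists_of_fixed N g (fun σ hσ => hg σ (hI σ hσ))
  refine ⟨u, w, hw0, by rw [hu, hgw], ?_, ?_⟩
  · rintro rfl
    rw [map_zero] at hu
    exact hg0 hu.symm
  · apply ι.injective
    rw [← S18.KPack.leadingCoeff_coeffMap, ← S18.toFN_coe, hu, hlc, map_one]

omit hq hA in
/-- **roots descend**: if `z ∈ F_{N,K₀}` is an `m`-th power in `F_N` (over `ℚ̄`) then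
`z = c * g ^ m` with `c ∈ K₀` (the leading coefficient of `z`) and `g ∈ F_{N,K₀}` with leading coefficient `1`. -/
theorem exists_root (N m : ℕ) [NeZero N] (hm : 0 < m) (z : modularFunctionFieldFullC K N)
    (hz : z ≠ 0) (W : FN N) (hW : W ^ m = S18.toFN ι N z) :
    ∃ (c : K) (g : modularFunctionFieldFullC K N), c ≠ 0 ∧
      z = algebraMap K (modularFunctionFieldFullC K N) c * g ^ m ∧
      (g : LaurentSeries K).leadingCoeff = 1 ∧ c = (z : LaurentSeries K).leadingCoeff := by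
  have hz' : (z : LaurentSeries K) ≠ 0 := fun h => hz (Subtype.ext h)
  have htz : S18.toFN ι N z ≠ 0 := by
    rw [Ne, map_eq_zero]
    exact hz
  have hW0 : W ≠ 0 := by
    rintro rfl
    rw [zero_pow hm.ne'] at hW
    exact htz hW.symm
  have hW0' : (W : LaurentSeries Kb) ≠ 0 := fun h => hW0 (Subtype.ext h)
  set e : Kb := (W : LaurentSeries Kb).leadingCoeff with he
  have he0 : e ≠ 0 := HahnSeries.leadingCoeff_ne_zero.2 hW0'
  set W₁ : FN N := W * algebraMap Kb (FN N) e⁻¹ with hW₁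
  have hW₁0 : W₁ ≠ 0 := mul_ne_zero hW0 (by rw [Ne, map_eq_zero]; exact inv_ne_zero he0)
  have hlc₁ : (W₁ : LaurentSeries Kb).leadingCoeff = 1 := by
    show ((W : LaurentSeries Kb) *
      ((algebraMap Kb (FN N) e⁻¹ : FN N) : LaurentSeries Kb)).leadingCoeff = 1
    rw [Rep.coe_algebraMap, HahnSeries.leadingCoeff_mul, NV.Canon.leadingCoeff_C, ← he,
      mul_inv_cancel₀ he0]
  set c : K := (z : LaurentSeries K).leadingCoeff with hc
  have hc0 : c ≠ 0 := HahnSeries.leadingCoeff_ne_zero.2 hz'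
  have hec : e ^ m = ι c := by
    have h1 := congrArg (fun y : FN N => (y : LaurentSeries Kb).leadingCoeff) hW
    simp only [S18.toFN_coe, S18.KPack.leadingCoeff_coeffMap] at h1
    rw [← hc] at h1
    rw [← h1, he]
    exact (NV.Canon.leadingCoeff_pow' _ _).symm
  have hfix : ∀ τ ∈ A.inertiaSubgroupIn ℚ, galF N τ W₁ = W₁ := by
    intro τ hτ
    have h1 : (galF N τ W₁) ^ m = W₁ ^ m := by
      rw [← map_pow, hW₁, mul_pow, hW, ← map_pow, inv_pow, hec, map_mul, galF_toFN hι N z τ hτ,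
        GES.galF_algebraMap, map_inv₀, hι.fixed c τ hτ]
    have h2 : ((galF N τ W₁ * W₁⁻¹ : FN N) : LaurentSeries Kb) = 1 := by
      apply K0.eq_one_of_pow_eq_one _ hm
      · have h3 : (galF N τ W₁ * W₁⁻¹) ^ m = 1 := by
          rw [mul_pow, h1, inv_pow, mul_inv_cancel₀ (pow_ne_zero _ hW₁0)]
        exact congrArg Subtype.val h3
      · show ((galF N τ W₁ : LaurentSeries Kb) * ((W₁⁻¹ : FN N) : LaurentSeries Kb)).leadingCoeff = 1
        have h4 : ((W₁⁻¹ : FN N) : LaurentSeries Kb) = (W₁ : LaurentSeries Kb)⁻¹ := rfl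
        have h5 : ((W₁ : LaurentSeries Kb)⁻¹).leadingCoeff = 1 := by
          have h6 : ((W₁ : LaurentSeries Kb) * (W₁ : LaurentSeries Kb)⁻¹).leadingCoeff = 1 := by
            rw [mul_inv_cancel₀ (fun h => hW₁0 (Subtype.ext h))]
            exact HahnSeries.leadingCoeff_one
          rwa [HahnSeries.leadingCoeff_mul, hlc₁, one_mul] at h6
        rw [HahnSeries.leadingCoeff_mul, h4, h5, GES.coe_galF, NV.Canon.leadingCoeff_coeffMap, hlc₁,
          map_one, one_mul]
    have h3 : galF N τ W₁ * W₁⁻¹ = 1 := Subtype.ext h2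
    field_simp at h3
    exact h3
  obtain ⟨g, hg⟩ := hι.exists_of_fixed N W₁ hfix
  refine ⟨c, g, hc0, ?_, ?_, rfl⟩
  · apply (S18.toFN ι N).injective
    rw [map_mul, map_pow, hg, hW₁, mul_pow, hW, ← map_pow, inv_pow, hec]
    have h1 : S18.toFN ι N (algebraMap K (modularFunctionFieldFullC K N) c) =
        algebraMap Kb (FN N) (ι c) := by
      apply Subtype.ext
      rw [S18.toFN_coe, Rep.coe_algebraMap]
      show coeffMap ι (algebraMap K (LaurentSeries K) c) = _
      rw [algebraMap_laurentSeries_eq_single, coeffMap_single, HahnSeries.C_apply]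
    rw [h1, mul_comm (S18.toFN ι N z), ← mul_assoc, ← map_mul,
      mul_inv_cancel₀ (by rw [Ne, map_eq_zero]; exact hc0), map_one, one_mul]
  · apply ι.injective
    rw [← S18.KPack.leadingCoeff_coeffMap, ← S18.toFN_coe, hg, hlc₁, map_one]

end IsInertiaField

end Fermat.Agent.S36.Descent
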