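import Fermat.Agent.S36.Descent.Rep
import Fermat.Agent.S36.Descent.Rat
import Fermat.Agent.S36.Descent.Unram
import Fermat.Agent.S31.RootsOfUnity

set_option autoImplicit false

/-!
# S36, step (1) DESCENT: the final pack

`exists_unramified_pack`: a class `f * (F_N^×)^m` fixed by the inertia group `I_A` (`A` over `q`) has a
representative `u` (leading coefficient `1`) defined over a number field `K`, `ι : K →+* ℚ̄`, such that
* `ι K ⊆ Fix(I_A)`;
* `q` is a uniformiser of `R = A.comap ι`;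
* `K` contains a primitive `r`-th root of unity (`q ∤ r`) and any given finite set `T` of elements of
  `Fix(I_A)`.
-/

noncomputable section

namespace Fermat.Agent.S36.Descent

open AlgebraicCurve ModularCurve IntermediateField
open Fermat.Agent.S24 (Kb FN iotaK)
open Fermat.Agent.GES (GQ galF)

/-- **D3** for an abstract number field: if `ι K` is fixed by the inertia group of `A` (over `q`) then `q`
is a uniformiser of `A.comap ι`. -/
theorem uniformiser_of_inertia_fixed (A : ValuationSubring Kb) {q : ℕ} (hq : q.Prime)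
    (hA : A.LiesOverPrime q) {K : Type} [Field K] [NumberField K] (ι : K →+* Kb)
    (hfix : ∀ σ ∈ A.inertiaSubgroupIn ℚ, ∀ a : K, σ (ι a) = ι a) (a : K)
    (ha : ι a ∈ A.nonunits) : ∃ b : K, ι b ∈ A ∧ a = (q : K) * b := by
  let φ : K →ₐ[ℚ] Kb := ι.toRatAlgHom
  have hφ : ∀ x, φ x = ι x := fun _ => rfl
  have hfd : FiniteDimensional ℚ φ.fieldRange :=
    (φ.rangeRestrict.toLinearMap).finiteDimensional_of_surjective
      (LinearMap.range_eq_top.2 φ.rangeRestrict_surjective)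
  have h := Unram.div_mem_of_fixed A hq hA φ.fieldRange
    (by
      rintro x ⟨y, rfl⟩ τ hτ
      exact hfix τ hτ y) (x := ι a) ⟨a, rfl⟩ ha
  have hq0 : (q : K) ≠ 0 := Nat.cast_ne_zero.2 hq.ne_zero
  refine ⟨a / q, ?_, by rw [mul_div_cancel₀ _ hq0]⟩
  rw [map_div₀, map_natCast]
  exact h

/-- **D4**: roots of unity of order prime to `q` are fixed by inertia. -/
theorem inertia_fixes_root (A : ValuationSubring Kb) {q r : ℕ} (hq : q.Prime)
    (hA : A.LiesOverPrime q) (hr : ¬ q ∣ r) {ζ : Kb} (hζ : ζ ^ r = 1) :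
    ∀ σ ∈ A.inertiaSubgroupIn ℚ, σ ζ = ζ := fun _ hσ =>
  S31.inertia_apply_root hq hA hσ hr hζ

/-- **DESCENT TO AN UNRAMIFIED BASE.** -/
theorem exists_unramified_pack (N m q r : ℕ) [NeZero N] (hm : 0 < m) (hq : q.Prime) (hr : ¬ q ∣ r)
    (A : ValuationSubring Kb) (hA : A.LiesOverPrime q) (f : FN N) (hf : f ≠ 0)
    (hI : ∀ σ ∈ A.inertiaSubgroupIn ℚ, ∃ w : FN N, w ≠ 0 ∧ galF N σ f = f * w ^ m)
    (T : Finset Kb) (hT : ∀ c ∈ T, ∀ σ ∈ A.inertiaSubgroupIn ℚ, σ c = c) :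
    ∃ (K : Type) (_ : Field K) (_ : NumberField K) (ι : K →+* Kb) (ζ : K)
      (u : modularFunctionFieldFullC K N) (w : FN N),
      IsPrimitiveRoot ζ r ∧ w ≠ 0 ∧ S18.toFN ι N u = f * w ^ m ∧ u ≠ 0 ∧
      (u : LaurentSeries K).leadingCoeff = 1 ∧
      (∀ σ ∈ A.inertiaSubgroupIn ℚ, ∀ a : K, σ (ι a) = ι a) ∧
      (∀ a : K, ι a ∈ A.nonunits → ∃ b : K, ι b ∈ A ∧ a = (q : K) * b) ∧
      (∀ c ∈ T, ∃ a : K, ι a = c) := by
  classical
  have hr0 : r ≠ 0 := fun h0 => hr (h0 ▸ dvd_zero q)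
  have : NeZero r := ⟨hr0⟩
  obtain ⟨ζ, hζ⟩ := HasEnoughRootsOfUnity.exists_primitiveRoot Kb r
  obtain ⟨g, hg0, ⟨w, hw0, hgw⟩, hlc, hg⟩ := exists_fixed_rep N m hm f hf
  obtain ⟨K, fK, nfK, ι, u, hu, hfix, hT'⟩ := exists_rational N
    (A.inertiaSubgroupIn ℚ : Set GQ) g (fun σ hσ => hg σ (hI σ hσ)) (insert ζ T) (by
      intro c hc σ hσ
      rcases Finset.mem_insert.1 hc with rfl | hc
      · exact inertia_fixes_root A hq hA hr hζ.pow_eq_one σ hσ
      · exact hT c hc σ hσ)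
  obtain ⟨ζ', rfl⟩ := hT' ζ (Finset.mem_insert_self _ _)
  refine ⟨K, fK, nfK, ι, ζ', u, w, hζ.of_map_of_injective ι.injective, hw0, by rw [hu, hgw], ?_, ?_,
    hfix, uniformiser_of_inertia_fixed A hq hA ι hfix,
    fun c hc => hT' c (Finset.mem_insert_of_mem hc)⟩
  · rintro rfl
    rw [map_zero] at hu
    exact hg0 hu.symm
  · apply ι.injective
    rw [← S18.KPack.leadingCoeff_coeffMap, ← S18.toFN_coe, hu, hlc, map_one]

end Fermat.Agent.S36.Descent
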