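import Fermat.Agent.NV.Canon
import Fermat.Agent.GES.Defs
import Fermat.Agent.S24.Degree

set_option autoImplicit false

/-!
# S36, step (1) DESCENT, part D1: a canonical representative over `ℚ̄`

Every class `f * (F_N^×)^m` contains a representative `g` with leading coefficient `1` which is fixed
(coefficientwise) by EVERY `σ ∈ G_ℚ` fixing the class.  No cocycle, no Hilbert 90: this is
`NV.Canon.exists_canonical_abs` for `K = ℚ̄`.
-/

noncomputable section

namespace Fermat.Agent.S36.Descent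

open AlgebraicCurve ModularCurve
open Fermat.Agent.S24 (Kb FN iotaK)
open Fermat.Agent.GES (GQ galF)

namespace Rep

theorem coe_jF (N : ℕ) [NeZero N] : ((S24.jF N : FN N) : LaurentSeries Kb) = jqModC Kb := by
  show S24.Jser 1 = _
  rw [S24.Jser, dif_neg one_ne_zero, jqNModC_one]

theorem coe_algebraMap (N : ℕ) (a : Kb) :
    ((algebraMap Kb (FN N) a : FN N) : LaurentSeries Kb) = HahnSeries.C a :=
  algebraMap_laurentSeries_eq_single Kb a

end Rep

/-- the canonical representative, not yet normalised. -/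
theorem exists_fixed_rep_aux (N : ℕ) [NeZero N] (m : ℕ) (hm : 0 < m) (f : FN N) (hf : f ≠ 0) :
    ∃ g : FN N, g ≠ 0 ∧ (∃ w : FN N, w ≠ 0 ∧ g = f * w ^ m) ∧
      ∀ σ : GQ, (∃ w : FN N, w ≠ 0 ∧ galF N σ f = f * w ^ m) → galF N σ g = g := by
  obtain ⟨g, hg0, hgw, hg⟩ := NV.Canon.exists_canonical_abs (S24.isFF1_FN N)
    (S24.transcendental_jF N)
    ((modularFunctionFieldBar N).val : FN N →+* LaurentSeries Kb)
    (fun a => algebraMap_laurentSeries_eq_single Kb a)
    (by
      show ((S24.jF N : FN N) : LaurentSeries Kb).order ≠ 0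
      rw [Rep.coe_jF, NV.Canon.order_jqModC]
      decide) m hm f hf
  refine ⟨g, hg0, hgw, fun σ hσ => ?_⟩
  refine hg (galF N σ : FN N →+* FN N) ?_ ?_ ?_ ?_ hσ
  · apply Subtype.ext
    show coeffMap (σ : Kb →+* Kb) ((S24.jF N : FN N) : LaurentSeries Kb) = _
    rw [Rep.coe_jF, coeffMap_jqModC]
  · intro v'
    refine ⟨(arithmeticGalois (modularFunctionFieldFull N) σ)⁻¹ • v', fun y => ?_⟩
    have := SemilinearAut.ord_smul (arithmeticGalois (modularFunctionFieldFull N) σ)
      ((arithmeticGalois (modularFunctionFieldFull N) σ)⁻¹ • v') y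
    rw [smul_inv_smul] at this
    exact this
  · intro y
    exact NV.Canon.order_coeffMap _ _
  · intro y hy
    show (coeffMap (σ : Kb →+* Kb) (y : LaurentSeries Kb)).leadingCoeff = 1
    rw [NV.Canon.leadingCoeff_coeffMap]
    have hy' : (y : LaurentSeries Kb).leadingCoeff = 1 := hy
    rw [hy', map_one]

/-- **D1.**  Every class `f * (F_N^×)^m` has a representative `g` with leading coefficient `1` which is
fixed by every `σ ∈ G_ℚ` which fixes the class. -/
theorem exists_fixed_rep (N : ℕ) [NeZero N] (m : ℕ) (hm : 0 < m) (f : FN N) (hf : f ≠ 0) :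
    ∃ g : FN N, g ≠ 0 ∧ (∃ w : FN N, w ≠ 0 ∧ g = f * w ^ m) ∧
      (g : LaurentSeries Kb).leadingCoeff = 1 ∧
      ∀ σ : GQ, (∃ w : FN N, w ≠ 0 ∧ galF N σ f = f * w ^ m) → galF N σ g = g := by
  obtain ⟨g, hg0, ⟨w, hw0, hgw⟩, hg⟩ := exists_fixed_rep_aux N m hm f hf
  have hg0' : (g : LaurentSeries Kb) ≠ 0 := fun h => hg0 (Subtype.ext h)
  set c : Kb := (g : LaurentSeries Kb).leadingCoeff with hc
  have hc0 : c ≠ 0 := HahnSeries.leadingCoeff_ne_zero.2 hg0'
  obtain ⟨e, he⟩ := IsAlgClosed.exists_pow_nat_eq c⁻¹ hm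
  have he0 : e ≠ 0 := by
    rintro rfl
    rw [zero_pow hm.ne'] at he
    exact inv_ne_zero hc0 he.symm
  have hE0 : algebraMap Kb (FN N) e ≠ 0 := by
    rw [Ne, map_eq_zero]
    exact he0
  have hEm : algebraMap Kb (FN N) e ^ m = algebraMap Kb (FN N) c⁻¹ := by
    rw [← map_pow, he]
  refine ⟨g * algebraMap Kb (FN N) c⁻¹, mul_ne_zero hg0 (by rw [Ne, map_eq_zero]; exact inv_ne_zero hc0),
    ⟨w * algebraMap Kb (FN N) e, mul_ne_zero hw0 hE0, ?_⟩, ?_, fun σ hσ => ?_⟩
  · rw [mul_pow, hEm, hgw, mul_assoc]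
  · show ((g : LaurentSeries Kb) * ((algebraMap Kb (FN N) c⁻¹ : FN N) : LaurentSeries Kb)).leadingCoeff = 1
    rw [Rep.coe_algebraMap, HahnSeries.leadingCoeff_mul, NV.Canon.leadingCoeff_C, ← hc,
      mul_inv_cancel₀ hc0]
  · have h1 := hg σ hσ
    have h2 : σ c = c := by
      have := congrArg (fun y : FN N => (y : LaurentSeries Kb).leadingCoeff) h1
      simp only [GES.coe_galF, NV.Canon.leadingCoeff_coeffMap] at this
      exact this
    rw [map_mul, h1, GES.galF_algebraMap, map_inv₀, h2]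

end Fermat.Agent.S36.Descent
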